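import Mathlib.NumberTheory.ModularForms.QExpansion
import Mathlib.Analysis.Complex.HasPrimitives
import Mathlib.Analysis.Complex.RemovableSingularity
import Mathlib.Analysis.Calculus.Deriv.Polynomial

set_option autoImplicit false

open Complex Filter Function
open UpperHalfPlane hiding I
open scoped Real Topology Manifold

namespace Fermat.Agent.S22.H68

/-- Holomorphic on the upper half plane, `h`-periodic, and zero at `i∞`. -/
structure CuspPer (h : ℝ) (φ : ℍ → ℂ) : Prop where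
  holo : MDiff φ
  per : Function.Periodic (φ ∘ ofComplex) h
  zero : IsZeroAtImInfty φ

/-- `Ψ` is a primitive of `F` on the upper half plane. -/
def IsPrim (Ψ F : ℍ → ℂ) : Prop := ∀ z : ℍ, HasDerivAt (Ψ ∘ ofComplex) (F z) (z : ℂ)

theorem hasDerivAt_comp_ofComplex_iff {Ψ : ℍ → ℂ} {G : ℂ → ℂ} (hG : ∀ z : ℍ, G z = Ψ z)
    (z : ℍ) (d : ℂ) : HasDerivAt (Ψ ∘ ofComplex) d (z : ℂ) ↔ HasDerivAt G d (z : ℂ) := by
  have hev : (Ψ ∘ ofComplex) =ᶠ[𝓝 (z : ℂ)] G := by
    filter_upwards [isOpen_upperHalfPlaneSet.mem_nhds z.im_pos] with w hw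
    have hw' : 0 < w.im := hw
    simp only [Function.comp_apply, ofComplex_apply_of_im_pos hw']
    exact (hG ⟨w, hw'⟩).symm
  exact ⟨fun h => h.congr_of_eventuallyEq hev.symm, fun h => h.congr_of_eventuallyEq hev⟩

theorem CuspPer.exists_antideriv {h : ℝ} (hh : 0 < h) {φ : ℍ → ℂ} (hφ : CuspPer h φ) :
    ∃ ψ : ℍ → ℂ, CuspPer h ψ ∧ IsPrim ψ φ := by
  set F := cuspFunction h φ with hF
  have hFd : DifferentiableOn ℂ F (Metric.ball 0 1) :=
    differentiableOn_cuspFunction_ball hh hφ.per hφ.holo hφ.zero.isBoundedAtImInfty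
  have hF0 : F 0 = 0 := hφ.zero.cuspFunction_apply_zero hh
  have hGd : DifferentiableOn ℂ (dslope F 0) (Metric.ball 0 1) :=
    (Complex.differentiableOn_dslope (Metric.ball_mem_nhds 0 one_pos)).mpr hFd
  obtain ⟨P, hP0, hP⟩ := hGd.isExactOn_ball.with_val_at 0 0
  have hcpi : (2 * π * I : ℂ) ≠ 0 := Complex.two_pi_I_ne_zero
  have hhc : (h : ℂ) ≠ 0 := by exact_mod_cast hh.ne'
  -- the candidate, as a function on `ℂ`
  set G : ℂ → ℂ := fun w => (h / (2 * π * I)) * P (Periodic.qParam h w) with hGdef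
  have hqball : ∀ z : ℍ, Periodic.qParam h (z : ℂ) ∈ Metric.ball (0 : ℂ) 1 := fun z => by
    simpa using Periodic.norm_qParam_lt_one hh z.im_pos
  have hderiv : ∀ z : ℍ, HasDerivAt G (φ z) (z : ℂ) := by
    intro z
    set q := Periodic.qParam h (z : ℂ) with hq
    have hq0 : q ≠ 0 := Periodic.qParam_ne_zero _
    have h1 : HasDerivAt (Periodic.qParam h) (2 * π * I / h * q) (z : ℂ) := by
      have : HasDerivAt (fun w : ℂ => 2 * π * I * w / h) (2 * π * I / h) (z : ℂ) := by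
        simpa [mul_div_assoc] using ((hasDerivAt_id (z : ℂ)).const_mul (2 * π * I)).div_const (h : ℂ)
      have h2 := this.cexp
      have e1 : (fun w : ℂ => cexp (2 * π * I * w / h)) = Periodic.qParam h := rfl
      rw [e1] at h2
      have e2 : 2 * π * I / h * q = cexp (2 * π * I * (z : ℂ) / h) * (2 * π * I / h) := by
        rw [hq]; simp only [Periodic.qParam]; ring
      rw [e2]; exact h2
    have h2 : HasDerivAt P (dslope F 0 q) q := hP q (hqball z)
    have h3 := (h2.comp (z : ℂ) h1).const_mul ((h : ℂ) / (2 * π * I))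
    have hval : (h : ℂ) / (2 * π * I) * (dslope F 0 q * (2 * π * I / h * q)) = φ z := by
      rw [dslope_of_ne _ hq0, slope_def_field, hF0, sub_zero, sub_zero,
        ← eq_cuspFunction z hh.ne' hφ.per]
      field_simp
      rfl
    rw [hval] at h3
    exact h3
  refine ⟨fun z => G z, ⟨?_, ?_, ?_⟩, fun z => ?_⟩
  · rw [UpperHalfPlane.mdifferentiable_iff]
    intro w hw
    have := (hasDerivAt_comp_ofComplex_iff (Ψ := fun z : ℍ => G z) (G := G) (fun _ => rfl)
      ⟨w, hw⟩ _).mpr (hderiv ⟨w, hw⟩)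
    exact this.differentiableAt.differentiableWithinAt
  · intro w
    by_cases hw : 0 < w.im
    · have hw' : 0 < (w + h).im := by simpa using hw
      simp only [Function.comp_apply, ofComplex_apply_of_im_pos hw, ofComplex_apply_of_im_pos hw',
        hGdef]
      congr 2
      simp only [Periodic.qParam]
      rw [mul_add, add_div, Complex.exp_add, mul_div_assoc _ (h : ℂ) (h : ℂ), div_self hhc, mul_one,
        Complex.exp_two_pi_mul_I, mul_one]
    · have hw1 : w.im ≤ 0 := not_lt.mp hw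
      have hw2 : (w + h).im ≤ 0 := by simpa using hw1
      simp [Function.comp_apply, ofComplex_apply_of_im_nonpos hw1,
        ofComplex_apply_of_im_nonpos hw2]
  · have hPc : ContinuousAt P 0 := by
      have := hP 0 (Metric.mem_ball_self one_pos)
      exact this.continuousAt
    have ht : Tendsto (fun τ : ℍ => P (Periodic.qParam h τ)) atImInfty (𝓝 0) := by
      have := hPc.tendsto.comp (qParam_tendsto_atImInfty hh)
      rw [hP0] at this
      exact this
    have := ht.const_mul ((h : ℂ) / (2 * π * I))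
    simpa [IsZeroAtImInfty, ZeroAtFilter, hGdef] using this
  · exact (hasDerivAt_comp_ofComplex_iff (Ψ := fun z : ℍ => G z) (G := G) (fun _ => rfl) z _).mpr
      (hderiv z)

/-- The filter "`im → ∞` inside the vertical strip `|re| ≤ B`". -/
def stripFilter (B : ℝ) : Filter ℍ := atImInfty ⊓ 𝓟 {z : ℍ | |z.re| ≤ B}

/-- Rapid decay towards `i∞` on every vertical strip. -/
def RapidDecay (Ψ : ℍ → ℂ) : Prop :=
  ∀ (B : ℝ) (n : ℕ), Tendsto (fun z : ℍ => (z : ℂ) ^ n * Ψ z) (stripFilter B) (𝓝 0)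

namespace RapidDecay

variable {Ψ Ψ₁ Ψ₂ : ℍ → ℂ}

theorem zero : RapidDecay (fun _ => 0) := fun B n => by
  simp only [mul_zero]; exact tendsto_const_nhds

theorem add (h₁ : RapidDecay Ψ₁) (h₂ : RapidDecay Ψ₂) : RapidDecay (fun z => Ψ₁ z + Ψ₂ z) :=
  fun B n => by simpa [mul_add] using (h₁ B n).add (h₂ B n)

theorem const_mul (c : ℂ) (h : RapidDecay Ψ) : RapidDecay (fun z => c * Ψ z) :=
  fun B n => by simpa [mul_left_comm] using (h B n).const_mul c

theorem neg (h : RapidDecay Ψ) : RapidDecay (fun z => - Ψ z) :=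
  fun B n => by simpa using (h B n).neg

theorem sub (h₁ : RapidDecay Ψ₁) (h₂ : RapidDecay Ψ₂) : RapidDecay (fun z => Ψ₁ z - Ψ₂ z) :=
  fun B n => by simpa [mul_sub] using (h₁ B n).sub (h₂ B n)

theorem sum {ι : Type*} (s : Finset ι) {Ψ : ι → ℍ → ℂ} (h : ∀ i ∈ s, RapidDecay (Ψ i)) :
    RapidDecay (fun z => ∑ i ∈ s, Ψ i z) := fun B n => by
  have := tendsto_finsetSum s (fun i hi => h i hi B n)
  simpa [Finset.mul_sum] using this

theorem pow_mul (j : ℕ) (h : RapidDecay Ψ) : RapidDecay (fun z => (z : ℂ) ^ j * Ψ z) :=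
  fun B n => by simpa [← mul_assoc, ← pow_add] using h B (n + j)

theorem poly_mul (W : Polynomial ℂ) (h : RapidDecay Ψ) :
    RapidDecay (fun z => W.eval (z : ℂ) * Ψ z) := by
  have : (fun z : ℍ => W.eval (z : ℂ) * Ψ z) =
      fun z : ℍ => ∑ i ∈ Finset.range (W.natDegree + 1), W.coeff i * ((z : ℂ) ^ i * Ψ z) := by
    funext z
    rw [Polynomial.eval_eq_sum_range, Finset.sum_mul]
    exact Finset.sum_congr rfl fun i _ => by ring
  rw [this]
  exact sum _ fun i _ => (h.pow_mul i).const_mul _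

end RapidDecay

theorem tendsto_im_stripFilter (B : ℝ) : Tendsto (fun z : ℍ => z.im) (stripFilter B) atTop :=
  (tendsto_comap (f := UpperHalfPlane.im)).mono_left inf_le_left

theorem CuspPer.rapidDecay {h : ℝ} (hh : 0 < h) {ψ : ℍ → ℂ} (hψ : CuspPer h ψ) :
    RapidDecay ψ := by
  intro B n
  have hO := hψ.zero.exp_decay_atImInfty hh hψ.per hψ.holo hψ.zero.isBoundedAtImInfty
  obtain ⟨C, hC⟩ := hO.bound
  set c : ℝ := 2 * π / h with hc
  have hcpos : 0 < c := by positivity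
  -- the dominating function of `y = im z`
  set g : ℝ → ℝ := fun y => |C| * Real.exp (c * |B|) * ((|B| + y) ^ n / Real.exp (c * (|B| + y)))
    with hg
  have hg0 : Tendsto g atTop (𝓝 0) := by
    have h1 : Tendsto (fun u : ℝ => u ^ n / Real.exp (c * u)) atTop (𝓝 0) :=
      (isLittleO_pow_exp_pos_mul_atTop n hcpos).tendsto_div_nhds_zero
    have h2 : Tendsto (fun y : ℝ => |B| + y) atTop atTop := tendsto_atTop_add_const_left _ _ tendsto_id
    have := (h1.comp h2).const_mul (|C| * Real.exp (c * |B|))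
    simpa [hg, Function.comp_def] using this
  refine squeeze_zero_norm' ?_ (hg0.comp (tendsto_im_stripFilter B))
  have hC' : ∀ᶠ z : ℍ in stripFilter B, ‖ψ z‖ ≤ C * ‖Real.exp (-2 * π * z.im / h)‖ :=
    hC.filter_mono inf_le_left
  have hstrip : ∀ᶠ z : ℍ in stripFilter B, |z.re| ≤ B :=
    Filter.eventually_of_mem (Filter.mem_inf_of_right (Filter.mem_principal_self _)) fun z hz => hz
  filter_upwards [hC', hstrip] with z hz hzB
  have hBnn : 0 ≤ B := le_trans (abs_nonneg _) hzB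
  have hznorm : ‖(z : ℂ)‖ ≤ |B| + z.im := by
    calc ‖(z : ℂ)‖ ≤ |(z : ℂ).re| + |(z : ℂ).im| := Complex.norm_le_abs_re_add_abs_im _
      _ = |z.re| + z.im := by rw [UpperHalfPlane.coe_re, UpperHalfPlane.coe_im, abs_of_pos z.im_pos]
      _ ≤ |B| + z.im := by rw [abs_of_nonneg hBnn]; linarith
  have hexp : Real.exp (-2 * π * z.im / h) = Real.exp (c * |B|) / Real.exp (c * (|B| + z.im)) := by
    rw [← Real.exp_sub]; congr 1; rw [hc]; field_simp; ring
  rw [norm_mul, norm_pow, Function.comp_apply, hg]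
  have h1 : ‖ψ z‖ ≤ |C| * Real.exp (-2 * π * z.im / h) := by
    refine hz.trans ?_
    rw [Real.norm_of_nonneg (Real.exp_pos _).le]
    exact mul_le_mul_of_nonneg_right (le_abs_self C) (Real.exp_pos _).le
  calc ‖(z : ℂ)‖ ^ n * ‖ψ z‖
      ≤ (|B| + z.im) ^ n * (|C| * Real.exp (-2 * π * z.im / h)) := by
        apply mul_le_mul (pow_le_pow_left₀ (norm_nonneg _) hznorm n) h1 (norm_nonneg _)
        have : 0 ≤ |B| + z.im := by have := z.im_pos; positivity
        positivity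
    _ = |C| * Real.exp (c * |B|) * ((|B| + z.im) ^ n / Real.exp (c * (|B| + z.im))) := by
        rw [hexp]; ring

/-! ### Algebra of primitives on the upper half plane -/

namespace IsPrim

variable {Ψ Ψ₁ Ψ₂ F F₁ F₂ : ℍ → ℂ}

theorem zero : IsPrim (fun _ => 0) (fun _ => 0) := fun z => by
  have : ((fun _ : ℍ => (0 : ℂ)) ∘ ofComplex) = fun _ => 0 := rfl
  rw [this]; exact hasDerivAt_const _ _

theorem add (h₁ : IsPrim Ψ₁ F₁) (h₂ : IsPrim Ψ₂ F₂) :
    IsPrim (fun z => Ψ₁ z + Ψ₂ z) (fun z => F₁ z + F₂ z) := fun z => (h₁ z).add (h₂ z)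

theorem sub (h₁ : IsPrim Ψ₁ F₁) (h₂ : IsPrim Ψ₂ F₂) :
    IsPrim (fun z => Ψ₁ z - Ψ₂ z) (fun z => F₁ z - F₂ z) := fun z => (h₁ z).sub (h₂ z)

theorem neg (h : IsPrim Ψ F) : IsPrim (fun z => - Ψ z) (fun z => - F z) := fun z => (h z).neg

theorem const_mul (c : ℂ) (h : IsPrim Ψ F) :
    IsPrim (fun z => c * Ψ z) (fun z => c * F z) := fun z => (h z).const_mul c

theorem sum {ι : Type*} (s : Finset ι) {Ψ F : ι → ℍ → ℂ} (h : ∀ i ∈ s, IsPrim (Ψ i) (F i)) :
    IsPrim (fun z => ∑ i ∈ s, Ψ i z) (fun z => ∑ i ∈ s, F i z) := fun z => by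
  have := HasDerivAt.fun_sum (u := s) (A := fun i => Ψ i ∘ ofComplex) (A' := fun i => F i z)
    (x := (z : ℂ)) (fun i hi => h i hi z)
  simpa [Function.comp_def] using this

theorem congr_right (h : IsPrim Ψ F₁) (hF : ∀ z, F₁ z = F₂ z) : IsPrim Ψ F₂ := fun z => by
  rw [← hF z]; exact h z

theorem poly_mul (W : Polynomial ℂ) (h : IsPrim Ψ F) :
    IsPrim (fun z => W.eval (z : ℂ) * Ψ z)
      (fun z => W.derivative.eval (z : ℂ) * Ψ z + W.eval (z : ℂ) * F z) := fun z => by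
  have h1 : HasDerivAt (fun w : ℂ => W.eval w * (Ψ ∘ ofComplex) w)
      (W.derivative.eval (z : ℂ) * (Ψ ∘ ofComplex) z + W.eval (z : ℂ) * F z) (z : ℂ) :=
    (Polynomial.hasDerivAt W (z : ℂ)).mul (h z)
  have hz : (Ψ ∘ ofComplex) (z : ℂ) = Ψ z := by simp
  rw [hz] at h1
  refine h1.congr_of_eventuallyEq ?_
  filter_upwards [isOpen_upperHalfPlaneSet.mem_nhds z.im_pos] with w hw
  have hw' : 0 < w.im := hw
  simp only [Function.comp_apply, ofComplex_apply_of_im_pos hw']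

/-- Two primitives of the same function differ by a constant. -/
theorem exists_const (h₁ : IsPrim Ψ₁ F) (h₂ : IsPrim Ψ₂ F) : ∃ c : ℂ, ∀ z, Ψ₁ z = Ψ₂ z + c := by
  set D : ℂ → ℂ := (fun z : ℍ => Ψ₁ z - Ψ₂ z) ∘ ofComplex with hD
  have hDd : ∀ z : ℍ, HasDerivAt D 0 (z : ℂ) := fun z => by
    have := (h₁.sub h₂) z
    simpa using this
  have hs : IsOpen {z : ℂ | 0 < z.im} := isOpen_upperHalfPlaneSet
  have hs' : IsPreconnected {z : ℂ | 0 < z.im} := (convex_halfSpace_im_gt 0).isPreconnected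
  have hdiff : DifferentiableOn ℂ D {z : ℂ | 0 < z.im} := fun w hw =>
    (hDd ⟨w, hw⟩).differentiableAt.differentiableWithinAt
  have hderiv : Set.EqOn (deriv D) (deriv fun _ : ℂ => D Complex.I) {z : ℂ | 0 < z.im} := by
    intro w hw
    rw [(hDd ⟨w, hw⟩).deriv]; simp
  have hI : Complex.I ∈ {z : ℂ | 0 < z.im} := by simp
  have key := hs.eqOn_of_deriv_eq hs' hdiff (differentiableOn_const _) hderiv hI rfl
  refine ⟨D Complex.I, fun z => ?_⟩
  have := key z.im_pos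
  have e : D (z : ℂ) = Ψ₁ z - Ψ₂ z := by simp [hD]
  rw [e] at this
  have this' : Ψ₁ z - Ψ₂ z = D Complex.I := this
  linear_combination this'

end IsPrim

theorem stripFilter_neBot {B : ℝ} (hB : 0 ≤ B) : (stripFilter B).NeBot := by
  rw [stripFilter, Filter.inf_principal_neBot_iff]
  intro U hU
  obtain ⟨A, hA⟩ := (atImInfty_mem U).mp hU
  have hpos : 0 < (⟨0, max A 1⟩ : ℂ).im := by simp
  refine ⟨⟨⟨0, max A 1⟩, hpos⟩, hA _ ?_, ?_⟩
  · show A ≤ max A 1
    exact le_max_left _ _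
  · show |(0 : ℝ)| ≤ B
    simpa using hB

theorem RapidDecay.eq_zero_of_const {c : ℂ} (h : RapidDecay (fun _ => c)) : c = 0 := by
  have := stripFilter_neBot (le_refl (0 : ℝ))
  have h1 := h 0 0
  simp only [pow_zero, one_mul] at h1
  exact tendsto_nhds_unique tendsto_const_nhds h1

/-- A rapidly decaying primitive is unique. -/
theorem eq_of_isPrim_of_rapidDecay {Ψ₁ Ψ₂ F : ℍ → ℂ} (h₁ : IsPrim Ψ₁ F) (h₂ : IsPrim Ψ₂ F)
    (d₁ : RapidDecay Ψ₁) (d₂ : RapidDecay Ψ₂) : Ψ₁ = Ψ₂ := by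
  obtain ⟨c, hc⟩ := h₁.exists_const h₂
  have : RapidDecay (fun _ => c) := by
    have h3 := d₁.sub d₂
    have e : (fun z => Ψ₁ z - Ψ₂ z) = fun _ => c := funext fun z => by rw [hc z]; ring
    rw [e] at h3; exact h3
  have hc0 := this.eq_zero_of_const
  funext z
  rw [hc z, hc0, add_zero]

/-- `Ψ` is a rapidly decaying primitive of `φ · W`. -/
def IsDecPrim (φ : ℍ → ℂ) (W : Polynomial ℂ) (Ψ : ℍ → ℂ) : Prop :=
  IsPrim Ψ (fun z => φ z * W.eval (z : ℂ)) ∧ RapidDecay Ψ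

theorem IsDecPrim.unique {φ : ℍ → ℂ} {W : Polynomial ℂ} {Ψ₁ Ψ₂ : ℍ → ℂ}
    (h₁ : IsDecPrim φ W Ψ₁) (h₂ : IsDecPrim φ W Ψ₂) : Ψ₁ = Ψ₂ :=
  eq_of_isPrim_of_rapidDecay h₁.1 h₂.1 h₁.2 h₂.2

theorem CuspPer.exists_isDecPrim {h : ℝ} (hh : 0 < h) :
    ∀ (n : ℕ) (W : Polynomial ℂ), W.natDegree < n → ∀ φ : ℍ → ℂ, CuspPer h φ →
      ∃ Ψ, IsDecPrim φ W Ψ := by
  intro n
  induction n with
  | zero => intro W hW; exact absurd hW (Nat.not_lt_zero _)
  | succ n ih =>
    intro W hW φ hφ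
    obtain ⟨ψ, hψ, hψφ⟩ := hφ.exists_antideriv hh
    have hψd := hψ.rapidDecay hh
    by_cases hW' : Polynomial.derivative W = 0
    · refine ⟨fun z => W.eval (z : ℂ) * ψ z, ?_, hψd.poly_mul W⟩
      refine (hψφ.poly_mul W).congr_right fun z => ?_
      rw [hW']; simp [mul_comm]
    · have hnd : W.natDegree ≠ 0 := fun h0 => hW' (Polynomial.derivative_of_natDegree_zero h0)
      have hlt : (Polynomial.derivative W).natDegree < n :=
        lt_of_lt_of_le (Polynomial.natDegree_derivative_lt hnd) (Nat.lt_succ_iff.mp hW)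
      obtain ⟨Ψ₁, hΨ₁, hΨ₁d⟩ := ih _ hlt ψ hψ
      refine ⟨fun z => W.eval (z : ℂ) * ψ z - Ψ₁ z, ?_, (hψd.poly_mul W).sub hΨ₁d⟩
      refine ((hψφ.poly_mul W).sub hΨ₁).congr_right fun z => ?_
      ring

open Classical in
/-- The rapidly decaying primitive of `φ · W` (junk value `0` if there is none). -/
noncomputable def decPrim (φ : ℍ → ℂ) (W : Polynomial ℂ) : ℍ → ℂ :=
  if h : ∃ Ψ, IsDecPrim φ W Ψ then h.choose else 0

theorem IsDecPrim.eq_decPrim {φ : ℍ → ℂ} {W : Polynomial ℂ} {Ψ : ℍ → ℂ}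
    (h : IsDecPrim φ W Ψ) : decPrim φ W = Ψ := by
  have hex : ∃ Ψ, IsDecPrim φ W Ψ := ⟨Ψ, h⟩
  rw [decPrim, dif_pos hex]
  exact hex.choose_spec.unique h

theorem CuspPer.isDecPrim_decPrim {h : ℝ} (hh : 0 < h) {φ : ℍ → ℂ} (hφ : CuspPer h φ)
    (W : Polynomial ℂ) : IsDecPrim φ W (decPrim φ W) := by
  obtain ⟨Ψ, hΨ⟩ := CuspPer.exists_isDecPrim hh (W.natDegree + 1) W (Nat.lt_succ_self _) φ hφ
  rw [hΨ.eq_decPrim]; exact hΨ

end Fermat.Agent.S22.H68
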