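import Fermat.Agent.S22.H68.Prim

/-!
# Normalised primitives along vertical rays

Delivery of package A1 of helper8's interface for S22 (periodic shape).
-/

open Complex Filter Function
open UpperHalfPlane hiding I
open scoped Real Topology Manifold

namespace Fermat.Agent.S22.H68

/-- The vertical ray `t ↦ x + t i` tends to `i∞` inside the strip `|re| ≤ |x|`. -/
theorem tendsto_ray_stripFilter (x : ℝ) :
    Tendsto (fun t : ℝ => ofComplex ((x : ℂ) + t * I)) atTop (stripFilter |x|) := by
  have hev : ∀ᶠ t : ℝ in atTop, 0 < ((x : ℂ) + t * I).im := by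
    filter_upwards [eventually_gt_atTop (0 : ℝ)] with t ht
    simpa using ht
  rw [stripFilter, tendsto_inf]
  constructor
  · rw [atImInfty, tendsto_comap_iff]
    refine tendsto_id.congr' ?_
    filter_upwards [hev] with t ht
    simp only [Function.comp_apply, id_eq]
    rw [ofComplex_apply_of_im_pos ht]
    simp [UpperHalfPlane.im]
  · rw [tendsto_principal]
    filter_upwards [hev] with t ht
    show |(ofComplex ((x : ℂ) + t * I)).re| ≤ |x|
    rw [ofComplex_apply_of_im_pos ht]
    simp [UpperHalfPlane.re]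

/-- A1 (periodic shape): for `f` holomorphic on the upper half plane, periodic and vanishing at
`i∞`, the function `w ↦ f w * w ^ m` has a primitive on the upper half plane which tends to `0`
along every vertical ray. -/
theorem exists_normPrim (h : ℝ) (hh : 0 < h) (f : ℍ → ℂ) (hf : MDiff f)
    (hper : Function.Periodic (f ∘ ofComplex) h) (h0 : IsZeroAtImInfty f) (m : ℕ) :
    ∃ J : ℂ → ℂ, (∀ z : ℂ, 0 < z.im → HasDerivAt J ((f ∘ ofComplex) z * z ^ m) z) ∧
      ∀ x : ℝ, Tendsto (fun t : ℝ => J (x + t * Complex.I)) atTop (𝓝 0) := by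
  have hφ : CuspPer h f := ⟨hf, hper, h0⟩
  obtain ⟨Ψ, hΨ, hΨd⟩ := CuspPer.exists_isDecPrim hh (m + 1) (Polynomial.X ^ m)
    (by simp) f hφ
  refine ⟨Ψ ∘ ofComplex, ?_, ?_⟩
  · intro z hz
    have := hΨ ⟨z, hz⟩
    simp only [Polynomial.eval_pow, Polynomial.eval_X] at this
    simp only [Function.comp_apply]
    rw [ofComplex_apply_of_im_pos hz]
    exact this
  · intro x
    have := (hΨd |x| 0).comp (tendsto_ray_stripFilter x)
    simpa [Function.comp_def] using this

/-- Functions with derivative `0` on the upper half plane are constant there. -/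
theorem eq_of_hasDerivAt_zero {G : ℂ → ℂ} (h : ∀ z : ℂ, 0 < z.im → HasDerivAt G 0 z)
    {z w : ℂ} (hz : 0 < z.im) (hw : 0 < w.im) : G z = G w := by
  have hconv : Convex ℝ {z : ℂ | 0 < z.im} := by
    have : {z : ℂ | 0 < z.im} = Complex.imCLM ⁻¹' Set.Ioi 0 := by ext; simp
    rw [this]
    exact (convex_Ioi (0 : ℝ)).is_linear_preimage Complex.imCLM.isLinear
  have hdiff : DifferentiableOn ℂ G {z : ℂ | 0 < z.im} := fun u hu =>
    (h u hu).differentiableAt.differentiableWithinAt
  have hopen : IsOpen {z : ℂ | 0 < z.im} := isOpen_lt continuous_const Complex.continuous_im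
  have hderiv : ∀ u ∈ {z : ℂ | 0 < z.im}, fderivWithin ℂ G {z : ℂ | 0 < z.im} u = 0 := by
    intro u hu
    rw [fderivWithin_of_isOpen hopen hu]
    have := (h u hu).hasFDerivAt.fderiv
    rw [this]
    ext; simp
  exact (hconv.is_const_of_fderivWithin_eq_zero (𝕜 := ℂ) hdiff hderiv hz hw)

/-- Functions with the same derivative on `ℍ` and both tending to `0` along `t ↦ t * I` agree
on `ℍ`. -/
theorem eq_of_hasDerivAt_of_tendsto {G₁ G₂ g : ℂ → ℂ}
    (h₁ : ∀ z : ℂ, 0 < z.im → HasDerivAt G₁ (g z) z)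
    (h₂ : ∀ z : ℂ, 0 < z.im → HasDerivAt G₂ (g z) z)
    (l₁ : Tendsto (fun t : ℝ => G₁ (t * Complex.I)) atTop (𝓝 0))
    (l₂ : Tendsto (fun t : ℝ => G₂ (t * Complex.I)) atTop (𝓝 0))
    {z : ℂ} (hz : 0 < z.im) : G₁ z = G₂ z := by
  have hd : ∀ u : ℂ, 0 < u.im → HasDerivAt (fun u => G₁ u - G₂ u) 0 u := by
    intro u hu
    have := (h₁ u hu).sub (h₂ u hu)
    rw [sub_self] at this
    exact this
  -- the difference is the constant `G₁ z - G₂ z` along the ray, and tends to `0`
  have hconst : ∀ᶠ t : ℝ in atTop, G₁ (t * Complex.I) - G₂ (t * Complex.I) = G₁ z - G₂ z := by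
    filter_upwards [eventually_gt_atTop (0 : ℝ)] with t ht
    have ht' : 0 < ((t : ℂ) * Complex.I).im := by simpa using ht
    exact eq_of_hasDerivAt_zero (G := fun u => G₁ u - G₂ u) hd ht' hz
  have hlim : Tendsto (fun t : ℝ => G₁ (t * Complex.I) - G₂ (t * Complex.I)) atTop (𝓝 0) := by
    simpa using l₁.sub l₂
  have hlim' : Tendsto (fun _ : ℝ => G₁ z - G₂ z) atTop (𝓝 0) := hlim.congr' hconst
  have := tendsto_nhds_unique hlim' tendsto_const_nhds
  exact sub_eq_zero.mp this.symm

end Fermat.Agent.S22.H68
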