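import Fermat.Agent.S22.H68.Prim
import Mathlib.NumberTheory.ModularForms.Derivative

/-!
# Periodic primitives with respect to the normalised derivative `D`, and periodic polynomials

Delivery of packages A1 and A3 of the Eichler-cocycle route for S22.
-/

open Complex Filter Function
open UpperHalfPlane hiding I
open scoped Real Topology Manifold

namespace Fermat.Agent.S22.H68

/-- A1: a holomorphic `h`-periodic function on the upper half plane vanishing at `i∞` has a
primitive with respect to `D = (2πi)⁻¹ d/dz` with the same three properties. -/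
theorem exists_periodic_primitive (h : ℝ) (hh : 0 < h) (G : ℍ → ℂ) (hG : MDiff G)
    (hper : Function.Periodic (G ∘ ofComplex) h) (h0 : IsZeroAtImInfty G) :
    ∃ H : ℍ → ℂ, MDiff H ∧ Function.Periodic (H ∘ ofComplex) h ∧ IsZeroAtImInfty H ∧
      Derivative.normalizedDerivOfComplex H = G := by
  have h2 : (2 * (π : ℂ) * I) ≠ 0 := by simp [Real.pi_ne_zero]
  have hφ : CuspPer h (fun z => (2 * (π : ℂ) * I) * G z) := by
    refine ⟨?_, ?_, ?_⟩
    · exact (mdifferentiable_const (c := (2 * (π : ℂ) * I))).mul hG
    · intro w
      have := hper w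
      simp only [Function.comp_apply] at this ⊢
      rw [this]
    · have : Tendsto (fun z => (2 * (π : ℂ) * I) * G z) atImInfty (𝓝 ((2 * (π : ℂ) * I) * 0)) :=
        (IsZeroAtImInfty.eq_1 G ▸ h0).const_mul _
      simpa [IsZeroAtImInfty, ZeroAtFilter] using this
  obtain ⟨ψ, hψ, hprim⟩ := hφ.exists_antideriv hh
  refine ⟨ψ, hψ.holo, hψ.per, hψ.zero, ?_⟩
  funext z
  simp only [Derivative.normalizedDerivOfComplex]
  rw [(hprim z).deriv]
  field_simp

/-- A3: a polynomial which is periodic (with nonzero real period) on the upper half plane is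
constant. -/
theorem poly_const_of_periodic (P : Polynomial ℂ) (h : ℝ) (hh : h ≠ 0)
    (hP : ∀ τ : ℍ, P.eval ((τ : ℂ) + h) = P.eval (τ : ℂ)) : P = Polynomial.C (P.coeff 0) := by
  -- `P(X + h) = P` as polynomials
  have hinf : Set.Infinite (Set.range (fun τ : ℍ => (τ : ℂ))) := by
    have : Set.range (fun τ : ℍ => (τ : ℂ)) = {z : ℂ | 0 < z.im} := by
      ext z
      constructor
      · rintro ⟨τ, rfl⟩; exact τ.im_pos
      · intro hz; exact ⟨⟨z, hz⟩, rfl⟩
    rw [this]
    have hinj : Function.Injective (fun n : ℕ => ((n : ℂ) + 1) * I) := by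
      intro a b hab
      have := congrArg Complex.im hab
      simp at this
      exact_mod_cast this
    refine Set.infinite_of_injective_forall_mem hinj (fun n => ?_)
    simp only [Set.mem_ofPred_eq]
    have : (((n : ℂ) + 1) * I).im = (n : ℝ) + 1 := by simp
    rw [this]; positivity
  have hshift : P.comp (Polynomial.X + Polynomial.C (h : ℂ)) = P := by
    apply Polynomial.eq_of_infinite_eval_eq
    refine hinf.mono ?_
    rintro _ ⟨τ, rfl⟩
    simp only [Set.mem_ofPred_eq, Polynomial.eval_comp, Polynomial.eval_add, Polynomial.eval_X,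
      Polynomial.eval_C]
    exact hP τ
  -- hence `P (I + n h) = P I` for all `n`
  have hiter : ∀ n : ℕ, P.eval (I + n * (h : ℂ)) = P.eval I := by
    intro n
    induction n with
    | zero => simp
    | succ n ih =>
      have := congrArg (Polynomial.eval (I + n * (h : ℂ))) hshift
      simp only [Polynomial.eval_comp, Polynomial.eval_add, Polynomial.eval_X,
        Polynomial.eval_C] at this
      rw [← ih, ← this]
      congr 1
      push_cast
      ring
  have hconst : P = Polynomial.C (P.eval I) := by
    apply Polynomial.eq_of_infinite_eval_eq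
    have hinj : Function.Injective (fun n : ℕ => I + n * (h : ℂ)) := by
      intro a b hab
      have hab' : (a : ℂ) * (h : ℂ) = b * h := add_left_cancel hab
      have hh' : (h : ℂ) ≠ 0 := by exact_mod_cast hh
      have := mul_right_cancel₀ hh' hab'
      exact_mod_cast this
    refine Set.infinite_of_injective_forall_mem hinj (fun n => ?_)
    simp only [Set.mem_ofPred_eq, Polynomial.eval_C]
    exact hiter n
  have h0 : P.coeff 0 = P.eval I := by
    conv_lhs => rw [hconst]
    simp
  rw [h0]
  exact hconst

end Fermat.Agent.S22.H68
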